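import Mathlib
import Fermat.Agent.LT.T6.H830.HCSpec

/-!
# Row LT, tower T6, leaf T6.29.C3' `WIntOfC` (helper841)

OFF-MAIN.  `wIntOf841 : Fermat.Agent.LT.T6.H830.WIntOfC`, i.e. `CartanCC → WIntCC`:

    ∫_ℂ φ(bC ζ r w) Ψ(rhoC (bC ζ r w)) dw = 2π e^{-r} ∫_{u > |r|} φ(bC ζ u 0) Ψ(cosh u) sinh u du.

Proof.  `rhoC (bC ζ r w) = cosh r + e^r ‖w‖² / 2` and `‖det (bC ζ r w)‖ = e^ζ`, so by `CartanCC`
and the bi-invariance of `φ` the integrand is a function of `‖w‖`;
`MeasureTheory.integral_fun_norm_addHaar` on `ℂ`; then the substitution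
`y = √(2 e^{-r} (cosh u - cosh r))`, `u > |r|`
(`MeasureTheory.integral_image_eq_integral_abs_deriv_smul`).  No integrability is needed.
-/

set_option autoImplicit false

open scoped Matrix
open MeasureTheory

noncomputable section

namespace Fermat.Agent.LT.T6.H841

open Fermat.Agent.LT.T6 Fermat.Agent.LT.T6.H830

/-! ## 1. `det` and `rhoC` along `bC` -/

theorem det_bC841 (ζ r : ℝ) (w : ℂ) :
    ((bC ζ r w : GL (Fin 2) ℂ) : Matrix (Fin 2) (Fin 2) ℂ).det = ((Real.exp ζ : ℝ) : ℂ) := by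
  rw [coe_bC830, Matrix.det_fin_two_of, mul_zero, sub_zero, ← Complex.ofReal_mul, ← Real.exp_add]
  congr 2
  ring

theorem norm_det_bC841 (ζ r : ℝ) (w : ℂ) :
    ‖((bC ζ r w : GL (Fin 2) ℂ) : Matrix (Fin 2) (Fin 2) ℂ).det‖ = Real.exp ζ := by
  rw [det_bC841, Complex.norm_real, Real.norm_eq_abs, abs_of_pos (Real.exp_pos _)]

theorem trace_bC841 (ζ r : ℝ) (w : ℂ) :
    ((((bC ζ r w : GL (Fin 2) ℂ) : Matrix (Fin 2) (Fin 2) ℂ).conjTranspose *
        ((bC ζ r w : GL (Fin 2) ℂ) : Matrix (Fin 2) (Fin 2) ℂ)).trace).re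
      = Real.exp (ζ + r) * (1 + ‖w‖ ^ 2) + Real.exp (ζ - r) := by
  have hA : Real.exp (ζ + r) = Real.exp ((ζ + r) / 2) * Real.exp ((ζ + r) / 2) := by
    rw [← Real.exp_add]; congr 1; ring
  have hD : Real.exp (ζ - r) = Real.exp ((ζ - r) / 2) * Real.exp ((ζ - r) / 2) := by
    rw [← Real.exp_add]; congr 1; ring
  have hw : ‖w‖ ^ 2 = w.re * w.re + w.im * w.im := by
    rw [← Complex.normSq_eq_norm_sq, Complex.normSq_apply]
  rw [coe_bC830, hA, hD, hw]
  simp only [Matrix.trace_fin_two, Matrix.mul_apply, Fin.sum_univ_two, Matrix.conjTranspose_apply,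
    Matrix.of_apply, Matrix.cons_val', Matrix.cons_val_zero, Matrix.cons_val_one,
    Matrix.cons_val_fin_one, Matrix.empty_val', zero_mul, add_zero,
    Complex.star_def, map_mul, Complex.conj_ofReal, Complex.add_re, Complex.mul_re,
    Complex.ofReal_re, Complex.ofReal_im, Complex.mul_im, Complex.conj_re, Complex.conj_im,
    mul_zero, sub_zero]
  ring

theorem rhoC_bC841 (ζ r : ℝ) (w : ℂ) :
    rhoC (bC ζ r w) = Real.cosh r + Real.exp r * ‖w‖ ^ 2 / 2 := by
  unfold rhoC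
  rw [trace_bC841, norm_det_bC841, Real.cosh_eq, Real.exp_add, Real.exp_sub, Real.exp_neg]
  have h1 : Real.exp ζ ≠ 0 := Real.exp_ne_zero _
  have h2 : Real.exp r ≠ 0 := Real.exp_ne_zero _
  field_simp
  ring

/-! ## 2. `φ` along `bC` depends on `rhoC` only -/

theorem phi_bC_eq841 (hC : CartanCC) (φ : GL (Fin 2) ℂ → ℂ) (hφ : IsArchTestC φ)
    (ζ r r' : ℝ) (w w' : ℂ) (h : rhoC (bC ζ r w) = rhoC (bC ζ r' w')) :
    φ (bC ζ r w) = φ (bC ζ r' w') := by
  obtain ⟨k, k', hk, hk', e⟩ := hC (bC ζ r w) (bC ζ r' w')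
    (by rw [norm_det_bC841, norm_det_bC841]) h
  rw [e, hφ.right k' _ hk', hφ.left k _ hk]

/-! ## 3. The substitution `y = √(2 e^{-r} (cosh u - cosh r))` -/

/-- `Y r u = √(2 e^{-r} (cosh u - cosh r))`. -/
def ysub841 (r u : ℝ) : ℝ := Real.sqrt (2 * Real.exp (-r) * (Real.cosh u - Real.cosh r))

theorem cosh_lt841 {r u : ℝ} (hu : |r| < u) : Real.cosh r < Real.cosh u := by
  rw [Real.cosh_lt_cosh]
  exact lt_of_lt_of_le hu (le_abs_self u)

theorem ysub_arg_pos841 {r u : ℝ} (hu : |r| < u) :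
    0 < 2 * Real.exp (-r) * (Real.cosh u - Real.cosh r) :=
  mul_pos (mul_pos two_pos (Real.exp_pos _)) (sub_pos.2 (cosh_lt841 hu))

theorem ysub_pos841 {r u : ℝ} (hu : |r| < u) : 0 < ysub841 r u :=
  Real.sqrt_pos.2 (ysub_arg_pos841 hu)

theorem ysub_sq841 {r u : ℝ} (hu : |r| < u) :
    ysub841 r u ^ 2 = 2 * Real.exp (-r) * (Real.cosh u - Real.cosh r) :=
  Real.sq_sqrt (ysub_arg_pos841 hu).le

theorem cosh_of_ysub841 {r u : ℝ} (hu : |r| < u) :
    Real.cosh r + Real.exp r * ysub841 r u ^ 2 / 2 = Real.cosh u := by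
  rw [ysub_sq841 hu, Real.exp_neg]
  have h2 : Real.exp r ≠ 0 := Real.exp_ne_zero _
  field_simp
  ring

theorem ysub_hasDerivAt841 {r u : ℝ} (hu : |r| < u) :
    HasDerivAt (ysub841 r) (Real.exp (-r) * Real.sinh u / ysub841 r u) u := by
  have h1 : HasDerivAt (fun v : ℝ => 2 * Real.exp (-r) * (Real.cosh v - Real.cosh r))
      (2 * Real.exp (-r) * Real.sinh u) u := by
    have := ((Real.hasDerivAt_cosh u).sub_const (Real.cosh r)).const_mul (2 * Real.exp (-r))
    simpa using this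
  have h2 := h1.sqrt (ysub_arg_pos841 hu).ne'
  have e : 2 * Real.exp (-r) * Real.sinh u /
      (2 * Real.sqrt (2 * Real.exp (-r) * (Real.cosh u - Real.cosh r)))
      = Real.exp (-r) * Real.sinh u / ysub841 r u := by
    unfold ysub841
    rw [mul_assoc, mul_div_mul_left _ _ (two_ne_zero)]
  rw [e] at h2
  exact h2

theorem ysub_injOn841 (r : ℝ) : Set.InjOn (ysub841 r) (Set.Ioi |r|) := by
  intro u hu v hv h
  have hu' : |r| < u := hu
  have hv' : |r| < v := hv
  have h1 : ysub841 r u ^ 2 = ysub841 r v ^ 2 := by rw [h]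
  rw [ysub_sq841 hu', ysub_sq841 hv'] at h1
  have h2 : Real.cosh u = Real.cosh v := by
    have h3 := mul_left_cancel₀ (mul_pos two_pos (Real.exp_pos (-r))).ne' h1
    linarith
  exact Real.cosh_injOn (Set.mem_Ici.2 ((abs_nonneg r).trans hu'.le))
    (Set.mem_Ici.2 ((abs_nonneg r).trans hv'.le)) h2

theorem ysub_image841 (r : ℝ) : ysub841 r '' Set.Ioi |r| = Set.Ioi 0 := by
  ext y
  constructor
  · rintro ⟨u, hu, rfl⟩
    exact ysub_pos841 hu
  · intro hy
    have hy' : 0 < y := hy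
    have hc : Real.cosh r < Real.cosh r + Real.exp r * y ^ 2 / 2 := by
      have : 0 < Real.exp r * y ^ 2 / 2 := by positivity
      linarith
    have h1 : 1 ≤ Real.cosh r + Real.exp r * y ^ 2 / 2 := (Real.one_le_cosh r).trans hc.le
    refine ⟨Real.arcosh (Real.cosh r + Real.exp r * y ^ 2 / 2), ?_, ?_⟩
    · have h2 : Real.cosh |r| < Real.cosh (Real.arcosh (Real.cosh r + Real.exp r * y ^ 2 / 2)) := by
        rw [Real.cosh_arcosh h1, Real.cosh_abs]; exact hc
      rw [Real.cosh_lt_cosh, abs_abs, abs_of_nonneg (Real.arcosh_nonneg h1)] at h2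
      exact h2
    · unfold ysub841
      rw [Real.cosh_arcosh h1]
      have e : 2 * Real.exp (-r) * (Real.cosh r + Real.exp r * y ^ 2 / 2 - Real.cosh r) = y ^ 2 := by
        rw [Real.exp_neg]
        have h2 : Real.exp r ≠ 0 := Real.exp_ne_zero _
        field_simp
        ring
      rw [e, Real.sqrt_sq hy'.le]

/-! ## 4. The leaf -/

theorem volume_real_ball841 : (volume : Measure ℂ).real (Metric.ball (0 : ℂ) 1) = Real.pi := by
  rw [Measure.real, Complex.volume_ball]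
  simp

/-- **T6.29.C3' W-INT-OF.** -/
theorem wIntOf841 : WIntOfC := by
  intro hC φ hφ Ψ _ ζ r
  -- the radial profile
  set G : ℝ → ℂ := fun y => φ (bC ζ r (y : ℂ)) * Ψ (Real.cosh r + Real.exp r * y ^ 2 / 2) with hG
  have e1 : ∀ w : ℂ, φ (bC ζ r w) * Ψ (rhoC (bC ζ r w)) = G ‖w‖ := by
    intro w
    have hρ : rhoC (bC ζ r w) = rhoC (bC ζ r ((‖w‖ : ℝ) : ℂ)) := by
      rw [rhoC_bC841, rhoC_bC841, Complex.norm_real, Real.norm_eq_abs, abs_of_nonneg (norm_nonneg w)]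
    rw [hG]
    simp only
    rw [phi_bC_eq841 hC φ hφ ζ r r w _ hρ, rhoC_bC841]
  have e2 : (∫ w : ℂ, φ (bC ζ r w) * Ψ (rhoC (bC ζ r w))) = ∫ w : ℂ, G ‖w‖ :=
    integral_congr_ae (Filter.Eventually.of_forall e1)
  rw [e2, integral_fun_norm_addHaar (volume : Measure ℂ) G, Complex.finrank_real_complex,
    volume_real_ball841, ← ysub_image841 r,
    integral_image_eq_integral_abs_deriv_smul measurableSet_Ioi
      (fun u hu => (ysub_hasDerivAt841 (r := r) hu).hasDerivWithinAt) (ysub_injOn841 r)]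
  have e3 : ∀ u ∈ Set.Ioi |r|,
      |Real.exp (-r) * Real.sinh u / ysub841 r u| • (ysub841 r u ^ (2 - 1) • G (ysub841 r u))
        = ((Real.exp (-r) : ℝ) : ℂ) *
          (φ (bC ζ u 0) * Ψ (Real.cosh u) * ((Real.sinh u : ℝ) : ℂ)) := by
    intro u hu
    have hu' : |r| < u := hu
    have hy := ysub_pos841 hu'
    have hs : 0 < Real.sinh u := Real.sinh_pos_iff.2 ((abs_nonneg r).trans_lt hu')
    have habs : |Real.exp (-r) * Real.sinh u / ysub841 r u|
        = Real.exp (-r) * Real.sinh u / ysub841 r u :=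
      abs_of_pos (div_pos (mul_pos (Real.exp_pos _) hs) hy)
    have hρ : rhoC (bC ζ r ((ysub841 r u : ℝ) : ℂ)) = rhoC (bC ζ u 0) := by
      rw [rhoC_bC841, rhoC_bC841, Complex.norm_real, Real.norm_eq_abs, abs_of_pos hy,
        cosh_of_ysub841 hu']
      simp
    rw [habs, hG]
    simp only
    rw [phi_bC_eq841 hC φ hφ ζ r u _ 0 hρ, cosh_of_ysub841 hu', smul_smul, Complex.real_smul]
    have : Real.exp (-r) * Real.sinh u / ysub841 r u * ysub841 r u ^ (2 - 1)
        = Real.exp (-r) * Real.sinh u := by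
      have hne : ysub841 r u ≠ 0 := hy.ne'
      norm_num
      field_simp
    rw [this]
    push_cast
    ring
  rw [setIntegral_congr_fun measurableSet_Ioi e3, integral_const_mul]
  simp only [nsmul_eq_mul, Complex.real_smul]
  push_cast
  ring

end Fermat.Agent.LT.T6.H841

end
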